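import Mathlib
import Fermat.Agent.LT.T7.H227.CovolSpec
import Fermat.Agent.LT.H767.StrongApprox

/-!
# Row LT, tower T7, leaf T7.14.3c.F `StrictC227` (spare of helper404)

OFF-MAIN.  `strictC404 K : H227.StrictC227 K`, VERBATIM against `LT/T7/H227/CovolSpec.lean`
(helper227).  Pure algebra: additive strong approximation at the finite places
(`H767.exists_sub_mem_integers`, `H767.exists_denominator` of helper767) and linear algebra over
the adele ring.  No measure, no topology.

* existence: a common denominator `d` of the finite part of `g`; `x₁ ∈ K²` with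
  `x₁ + r ∈ d 𝒪̂²` at the finite places, so `(x₁ + r) g` is integral; then the translate by the
  element of `latG671 g` which moves the infinite part into `D`;
* uniqueness: the difference `ξ` of two solutions gives an element of `latG671 g` which fixes a
  point of `D`, so `pairOf671 (ξ g) = 0`, so the infinite part of `ξ g` vanishes, so `ξ = 0`
  (`g` is invertible, `K → K_∞` is injective).
-/

set_option autoImplicit false
set_option linter.unusedSectionVars false

open NumberField NumberField.mixedEmbedding NumberField.InfinitePlace IsDedekindDomain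
  MeasureTheory
open scoped Matrix

noncomputable section

namespace Fermat.Agent.LT.T7.H404

open Fermat.Agent.LT.H556 Fermat.Agent.LT.H556.A0 Fermat.Agent.LT.T7.Rigid
  Fermat.Agent.LT.T7.H671 Fermat.Agent.LT.T7.H227

variable {K : Type} [Field K] [NumberField K]

/-! ## Rows -/

theorem emb_vecMul404 (x : Fin 2 → K) (g : G K) :
    (emb227 K x) ᵥ* (g : Matrix (Fin 2) (Fin 2) (Adl K)) = rowOf x g := by
  funext j
  simp [emb227, rowOf, Matrix.vecMul, dotProduct, Fin.sum_univ_two]

theorem emb_add404 (x y : Fin 2 → K) : emb227 K (x + y) = emb227 K x + emb227 K y :=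
  map_add _ _ _

theorem vecMul_fin404 (w : Fin 2 → Adl K) (M : Matrix (Fin 2) (Fin 2) (Adl K)) (j : Fin 2)
    (v : HeightOneSpectrum (𝓞 K)) :
    ((w ᵥ* M) j).2 v = (w 0).2 v * (M 0 j).2 v + (w 1).2 v * (M 1 j).2 v := by
  have h : (w ᵥ* M) j = w 0 * M 0 j + w 1 * M 1 j := by
    simp [Matrix.vecMul, dotProduct, Fin.sum_univ_two]
  rw [h]
  rfl

theorem emb_fin404 (x : Fin 2 → K) (i : Fin 2) (v : HeightOneSpectrum (𝓞 K)) :
    (emb227 K x i).2 v = algebraMap K (v.adicCompletion K) (x i) := rfl

theorem add_fin404 (a b : Fin 2 → Adl K) (i : Fin 2) (v : HeightOneSpectrum (𝓞 K)) :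
    ((a + b) i).2 v = (a i).2 v + (b i).2 v := rfl

/-! ## A common denominator of a matrix -/

theorem exists_common_denominator404 (M : Matrix (Fin 2) (Fin 2) (Adl K)) :
    ∃ d : 𝓞 K, d ≠ 0 ∧ ∀ (i j : Fin 2) (v : HeightOneSpectrum (𝓞 K)),
      Valued.v (algebraMap K (v.adicCompletion K) (algebraMap (𝓞 K) K d) * (M i j).2 v) ≤ 1 := by
  classical
  choose δ hδ0 hδ using fun p : Fin 2 × Fin 2 =>
    Fermat.Agent.LT.H767.exists_denominator K (M p.1 p.2).2
  refine ⟨∏ p : Fin 2 × Fin 2, δ p, Finset.prod_ne_zero_iff.mpr fun p _ => hδ0 p, ?_⟩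
  intro i j v
  have hmem : (i, j) ∈ (Finset.univ : Finset (Fin 2 × Fin 2)) := Finset.mem_univ _
  rw [← Finset.mul_prod_erase _ _ hmem]
  have key : algebraMap K (v.adicCompletion K)
        (algebraMap (𝓞 K) K (δ (i, j) * ∏ p ∈ Finset.univ.erase (i, j), δ p)) * (M i j).2 v
      = (algebraMap K (v.adicCompletion K) (algebraMap (𝓞 K) K (δ (i, j))) * (M i j).2 v) *
        algebraMap K (v.adicCompletion K)
          (algebraMap (𝓞 K) K (∏ p ∈ Finset.univ.erase (i, j), δ p)) := by
    rw [map_mul, map_mul]; ring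
  rw [key, map_mul]
  calc _ ≤ (1 : WithZero (Multiplicative ℤ)) * 1 :=
        mul_le_mul' (hδ (i, j) v) (Fermat.Agent.LT.H767.valued_algebraMap_int_le_one K v _)
    _ = 1 := one_mul 1

/-! ## Existence of an integral translate -/

theorem exists_int_translate404 (g : G K) (r : Fin 2 → Adl K) :
    ∃ x : Fin 2 → K,
      IsIntRow671 ((emb227 K x + r) ᵥ* (g : Matrix (Fin 2) (Fin 2) (Adl K))) := by
  classical
  obtain ⟨d, hd0, hd⟩ := exists_common_denominator404 (g : Matrix (Fin 2) (Fin 2) (Adl K))
  set dK : K := algebraMap (𝓞 K) K d with hdK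
  have hdK0 : dK ≠ 0 := by
    rw [hdK]; simpa using hd0
  -- the finite adeles `d⁻¹ r_i`
  let a : Fin 2 → FiniteAdeleRing (𝓞 K) K := fun i =>
    algebraMap K (FiniteAdeleRing (𝓞 K) K) dK⁻¹ * (r i).2
  choose k hk using fun i : Fin 2 => Fermat.Agent.LT.H767.exists_sub_mem_integers K (a i)
  refine ⟨fun i => -(dK * k i), ?_⟩
  intro v j
  rw [vecMul_fin404]
  -- each coordinate of `x + r` is `d` times an integral element
  have hcoord : ∀ i : Fin 2,
      ((emb227 K (fun i => -(dK * k i)) + r) i).2 v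
        = algebraMap K (v.adicCompletion K) dK
            * (a i v - algebraMap K (v.adicCompletion K) (k i)) := by
    intro i
    rw [add_fin404, emb_fin404]
    have ha : a i v = algebraMap K (v.adicCompletion K) dK⁻¹ * (r i).2 v := rfl
    have hone : algebraMap K (v.adicCompletion K) dK
        * algebraMap K (v.adicCompletion K) dK⁻¹ = 1 := by
      rw [← map_mul, mul_inv_cancel₀ hdK0, map_one]
    rw [ha, map_neg, map_mul]
    calc -(algebraMap K (v.adicCompletion K) dK * algebraMap K (v.adicCompletion K) (k i))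
          + (r i).2 v
        = (algebraMap K (v.adicCompletion K) dK * algebraMap K (v.adicCompletion K) dK⁻¹)
            * (r i).2 v
          - algebraMap K (v.adicCompletion K) dK * algebraMap K (v.adicCompletion K) (k i) := by
          rw [hone]; ring
      _ = _ := by ring
  have hterm : ∀ i : Fin 2,
      ((emb227 K (fun i => -(dK * k i)) + r) i).2 v
          * ((g : Matrix (Fin 2) (Fin 2) (Adl K)) i j).2 v ∈ v.adicCompletionIntegers K := by
    intro i
    rw [hcoord i]
    have e : algebraMap K (v.adicCompletion K) dK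
          * (a i v - algebraMap K (v.adicCompletion K) (k i))
          * ((g : Matrix (Fin 2) (Fin 2) (Adl K)) i j).2 v
        = (a i v - algebraMap K (v.adicCompletion K) (k i))
          * (algebraMap K (v.adicCompletion K) dK
              * ((g : Matrix (Fin 2) (Fin 2) (Adl K)) i j).2 v) := by ring
    rw [e]
    refine mul_mem (hk i v) ?_
    rw [HeightOneSpectrum.mem_adicCompletionIntegers]
    exact hd i j v
  exact add_mem (hterm 0) (hterm 1)

/-! ## The infinite part -/

/-- The projection to the infinite adeles. -/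
def prInf404 (K : Type) [Field K] [NumberField K] : Adl K →+* InfiniteAdeleRing K :=
  RingHom.fst _ _

theorem prInf404_apply (a : Adl K) : prInf404 K a = a.1 := rfl

theorem infMixed671_eq_zero404 {a : Adl K} (h : infMixed671 a = 0) : a.1 = 0 := by
  unfold infMixed671 at h
  exact (InfiniteAdeleRing.ringEquiv_mixedSpace K).injective (h.trans (map_zero _).symm)

/-- If the infinite part of `ξ g` vanishes then `ξ = 0`. -/
theorem eq_zero_of_pairOf_rowOf404 (g : G K) (ξ : Fin 2 → K)
    (h : pairOf671 (rowOf ξ g) = 0) : ξ = 0 := by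
  classical
  have h0 : infMixed671 (rowOf ξ g 0) = 0 := congrArg Prod.fst h
  have h1 : infMixed671 (rowOf ξ g 1) = 0 := congrArg Prod.snd h
  have hz : ∀ j : Fin 2, prInf404 K (rowOf ξ g j) = 0 := by
    intro j
    fin_cases j
    · exact infMixed671_eq_zero404 h0
    · exact infMixed671_eq_zero404 h1
  -- transport the row to the infinite adeles and invert `g`
  set f : Adl K →+* InfiniteAdeleRing K := prInf404 K with hf
  set M : Matrix (Fin 2) (Fin 2) (Adl K) := (g : Matrix (Fin 2) (Fin 2) (Adl K)) with hM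
  set N : Matrix (Fin 2) (Fin 2) (Adl K) := ((g⁻¹ : G K) : Matrix (Fin 2) (Fin 2) (Adl K))
    with hN
  have hMN : M * N = 1 := by
    rw [hM, hN, ← Matrix.GeneralLinearGroup.coe_mul, mul_inv_cancel]
    rfl
  have hrow : (⇑f ∘ emb227 K ξ) ᵥ* M.map ⇑f = 0 := by
    funext j
    rw [← RingHom.map_vecMul, emb_vecMul404]
    exact hz j
  have hmap : M.map ⇑f * N.map ⇑f = 1 := by
    rw [← Matrix.map_mul, hMN, Matrix.map_one _ (map_zero f) (map_one f)]
  have hemb : (⇑f ∘ emb227 K ξ) = 0 := by
    have := congrArg (fun w => w ᵥ* N.map ⇑f) hrow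
    simp only [Matrix.vecMul_vecMul, hmap, Matrix.vecMul_one, Matrix.zero_vecMul] at this
    exact this
  funext i
  have hi : f (emb227 K ξ i) = 0 := congrFun hemb i
  have hi' : algebraMap K (InfiniteAdeleRing K) (ξ i) = 0 := hi
  have hinj : Function.Injective (algebraMap K (InfiniteAdeleRing K)) :=
    (algebraMap K (InfiniteAdeleRing K)).injective
  exact hinj (hi'.trans (map_zero _).symm)

/-! ## The leaf -/

/-- **T7.14.3c.F `StrictC227`.** -/
theorem strictC404 (K : Type) [Field K] [NumberField K] : StrictC227 K := by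
  classical
  intro g D hD r
  -- existence
  obtain ⟨x₁, hx₁⟩ := exists_int_translate404 g r
  obtain ⟨l, hl, -⟩ := hD (pairOf671 ((emb227 K x₁ + r) ᵥ* (g : Matrix (Fin 2) (Fin 2) (Adl K))))
  obtain ⟨ξ, hξint, hξ⟩ := mem_latG671.mp l.2
  have hsplit : ∀ y : Fin 2 → K,
      (emb227 K (y + x₁) + r) ᵥ* (g : Matrix (Fin 2) (Fin 2) (Adl K))
        = rowOf y g + (emb227 K x₁ + r) ᵥ* (g : Matrix (Fin 2) (Fin 2) (Adl K)) := by
    intro y
    rw [emb_add404, add_assoc, Matrix.add_vecMul, emb_vecMul404]
  refine ⟨ξ + x₁, ⟨?_, ?_⟩, ?_⟩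
  · rw [hsplit]
    exact isIntRow671_add hξint hx₁
  · rw [hsplit, pairOf671_add, hξ]
    exact hl
  · -- uniqueness
    rintro y ⟨hyint, hyD⟩
    -- `ζ = y - (ξ + x₁)`
    set x := ξ + x₁ with hx
    have hxint : IsIntRow671 ((emb227 K x + r) ᵥ* (g : Matrix (Fin 2) (Fin 2) (Adl K))) := by
      rw [hx, hsplit]; exact isIntRow671_add hξint hx₁
    have hxD : pairOf671 ((emb227 K x + r) ᵥ* (g : Matrix (Fin 2) (Fin 2) (Adl K))) ∈ D := by
      rw [hx, hsplit, pairOf671_add, hξ]; exact hl
    set ζ : Fin 2 → K := y - x with hζ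
    have hyx : y = ζ + x := by rw [hζ]; abel
    have hrowy : (emb227 K y + r) ᵥ* (g : Matrix (Fin 2) (Fin 2) (Adl K))
        = rowOf ζ g + (emb227 K x + r) ᵥ* (g : Matrix (Fin 2) (Fin 2) (Adl K)) := by
      rw [hyx, emb_add404, add_assoc, Matrix.add_vecMul, emb_vecMul404]
    have hζint : IsIntRow671 (rowOf ζ g) := by
      have e : rowOf ζ g = (emb227 K y + r) ᵥ* (g : Matrix (Fin 2) (Fin 2) (Adl K))
          + -((emb227 K x + r) ᵥ* (g : Matrix (Fin 2) (Fin 2) (Adl K))) := by
        rw [hrowy]; abel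
      rw [e]
      exact isIntRow671_add hyint (isIntRow671_neg hxint)
    -- two elements of the lattice move the same point into `D`
    let e₀ : Pair671 K := pairOf671 ((emb227 K x + r) ᵥ* (g : Matrix (Fin 2) (Fin 2) (Adl K)))
    obtain ⟨l₀, -, huniq⟩ := hD e₀
    have hmemζ : pairOf671 (rowOf ζ g) ∈ latG671 g := mem_latG671.mpr ⟨ζ, hζint, rfl⟩
    have h1 : (⟨pairOf671 (rowOf ζ g), hmemζ⟩ : latG671 g) = l₀ := by
      apply huniq
      show pairOf671 (rowOf ζ g) + e₀ ∈ D
      have : pairOf671 (rowOf ζ g) + e₀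
          = pairOf671 ((emb227 K y + r) ᵥ* (g : Matrix (Fin 2) (Fin 2) (Adl K))) := by
        rw [hrowy, pairOf671_add]
      rw [this]
      exact hyD
    have h2 : (0 : latG671 g) = l₀ := by
      apply huniq
      show ((0 : latG671 g) : Pair671 K) + e₀ ∈ D
      rw [ZeroMemClass.coe_zero, zero_add]
      exact hxD
    have h3 : pairOf671 (rowOf ζ g) = 0 := by
      have := congrArg (fun l : latG671 g => (l : Pair671 K)) (h1.trans h2.symm)
      simpa using this
    have hζ0 : ζ = 0 := eq_zero_of_pairOf_rowOf404 g ζ h3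
    rw [hyx, hζ0, zero_add]

end Fermat.Agent.LT.T7.H404

end
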